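import Fermat.Agent.Ribet.H884.EisSpec
import Fermat.Agent.Ribet.H376.I2Leaves
import Fermat.Agent.Ribet.H223.HeckeFunCore
import Fermat.Agent.S18.H9.Res

/-!
# Row 38, WALL-p, W-EIS leaf HECKE-NODE (`H884.HeckeNodeGenStatement`, VERBATIM)  (helper699)

`NodeGen f ⇒ NodeGen g` for `g = kronNorm ℓ f` (`ℓ ∤ pM'`).  Pure assembly of results on main:

* `g = Nm_α (β f)` (`S37.H157.node_normid`);
* the reduction of `Nm_α (β f)` on `C∞` is `kronNorm ℓ r₁` (`H376.isRedInf_heckeNorm'`), the one on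
  `C₀` is `kronNorm ℓ r₂` (`H376.wF_heckeNorm`: `w_N` commutes with `Nm_α ∘ β`);
* `kronNorm ℓ` preserves `PDivFin` over `k = A/𝔪` (helper223's characteristic-`p` Hecke
  correspondence `H223.HF.exists_kronNorm_dvd_ord_of_nonneg`).

Main statements: `pDivFin_kronNorm`, `nodeGen_heckeNorm`, **`heckeNodeGen`**.
-/

set_option autoImplicit false
set_option linter.style.haveILetI false
set_option synthInstance.maxHeartbeats 400000
set_option maxHeartbeats 1000000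

noncomputable section

open AlgebraicCurve ModularCurve

namespace Fermat.Agent.Ribet.H699

open Fermat.Agent.S24 Fermat.Agent.A2.H708 Fermat.Agent.A2.H528
open Fermat.Agent.Ribet.Spec Fermat.Agent.Ribet.H884
open Fermat.Agent.S37.H400

/-- `kronNorm ℓ` preserves `PDivFin` (`k` algebraically closed of characteristic `p`, `p ∤ M'`,
`ℓ ≠ p`, `ℓ ∤ M'`). -/
theorem pDivFin_kronNorm {k : Type} [Field k] [IsAlgClosed k] (p M' ℓ : ℕ) [NeZero M']
    [NeZero ℓ] [CharP k p] (hp : p.Prime) (hpM : ¬ p ∣ M') (hℓ : ℓ.Prime) (hℓp : ℓ ≠ p)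
    (hℓM : ¬ ℓ ∣ M') {r : LaurentSeries k} (hr : PDivFin p M' r) :
    PDivFin p M' (kronNorm ℓ r) := by
  obtain ⟨h, rfl, h0, hdiv⟩ := hr
  have hchar : ∀ q : ℕ, q.Prime → q ∣ M' * ℓ → (q : k) ≠ 0 := by
    intro q hq hqd hq0
    have h1 : p ∣ q := (CharP.cast_eq_zero_iff k p q).mp hq0
    have h2 : p = q := (Nat.prime_dvd_prime_iff_eq hp hq).mp h1
    subst h2
    rcases (Nat.Prime.dvd_mul hp).mp hqd with h3 | h3
    · exact hpM h3
    · exact hℓp ((Nat.prime_dvd_prime_iff_eq hp hℓ).mp h3).symm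
  obtain ⟨h', hh', hh'0, hdiv'⟩ :=
    Fermat.Agent.Ribet.H223.HF.exists_kronNorm_dvd_ord_of_nonneg (k := k) (N := M') (ℓ := ℓ)
      hℓ hℓM hchar (p : ℤ) h h0 (fun Q hQ => hdiv Q hQ)
  exact ⟨h', hh', hh'0, fun Q hQ => hdiv' Q hQ⟩

/-- The residue field of a valuation subring of `ℚ̄` over `p` has characteristic `p`. -/
theorem charP_kA (A : ValuationSubring Kbar) {p : ℕ} (hp : p.Prime) (hA : A.LiesOverPrime p) :
    CharP (kA A) p := by
  have hpm : ((p : ℕ) : A) ∈ IsLocalRing.maximalIdeal A := by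
    obtain ⟨ha, hm⟩ := (ValuationSubring.mem_nonunits_iff_exists_mem_maximalIdeal).mp hA
    have : (⟨(p : AlgebraicClosure ℚ), ha⟩ : A) = ((p : ℕ) : A) := by
      apply Subtype.ext; simp
    rwa [this] at hm
  have h0 : ((p : ℕ) : IsLocalRing.ResidueField A) = 0 := by
    have := (IsLocalRing.residue_eq_zero_iff ((p : ℕ) : A)).mpr hpm
    rwa [map_natCast] at this
  exact (CharP.charP_iff_prime_eq_zero hp).mpr h0

/-- `NodeGen` is stable under `Nm_α ∘ β`. -/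
theorem nodeGen_heckeNorm (p M' : ℕ) [NeZero M'] [NeZero p] [NeZero (p * M')] (hp : p.Prime)
    (hpM : ¬ p ∣ M') (A : ValuationSubring Kbar) (hA : A.LiesOverPrime p)
    (ℓ : ℕ) [NeZero ℓ] (hℓ : ℓ.Prime) (hℓN : ¬ ℓ ∣ p * M') {f : FF (p * M')}
    (h : NodeGen p M' A f) :
    NodeGen p M' A (Fermat.Agent.S29.H222.heckeNorm (p * M') ℓ f) := by
  obtain ⟨r₁, r₂, h1, h2, h3, h4⟩ := h
  haveI : CharP (kA A) p := charP_kA A hp hA
  haveI : IsAlgClosed (kA A) := Fermat.Agent.S18.H9.resAlgClosed (AlgebraicClosure ℚ) A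
  have hℓp : ℓ ≠ p := fun e => hℓN (e ▸ dvd_mul_right p M')
  have hℓM : ¬ ℓ ∣ M' := fun e => hℓN (dvd_mul_of_dvd_right e p)
  refine ⟨kronNorm ℓ r₁, kronNorm ℓ r₂,
    Fermat.Agent.Ribet.H376.isRedInf_heckeNorm' (p * M') ℓ hℓ hℓN A h1, ?_,
    pDivFin_kronNorm p M' ℓ hp hpM hℓ hℓp hℓM h3, pDivFin_kronNorm p M' ℓ hp hpM hℓ hℓp hℓM h4⟩
  unfold IsRedZero at h2 ⊢
  rw [Fermat.Agent.Ribet.H376.wF_heckeNorm hℓ hℓN]
  exact Fermat.Agent.Ribet.H376.isRedInf_heckeNorm' (p * M') ℓ hℓ hℓN A h2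

/-- **HECKE-NODE** (`H884.HeckeNodeGenStatement`, verbatim). -/
theorem heckeNodeGen : HeckeNodeGenStatement := by
  intro p M' _ _ _ hp hpM A hA ℓ _ hℓN f g hg hf
  have hgf : g = Fermat.Agent.S29.H222.heckeNorm (p * M') ℓ f :=
    Subtype.ext (hg.trans (Fermat.Agent.S37.H157.node_normid (p * M') ℓ ℓ.2 hℓN f).symm)
  rw [hgf]
  exact nodeGen_heckeNorm p M' hp hpM A hA ℓ ℓ.2 hℓN hf

end Fermat.Agent.Ribet.H699

end
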