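import Fermat.Agent.Ribet.H704.CoreOutSpec
import Fermat.Agent.Ribet.H868.NodePure
import Fermat.Agent.Ribet.H399.SplitLoc

/-!
# Row 38, WALL-p, CORE-OUT leaf (A2) PURE-DESCENT
# (`H704.CoreOut.PureDescentStatement`, VERBATIM)   (helper699)

`R ⊆ R'` node rings (`R' ⊆ L` a node ring above `R`, same `π, x, y`, branches `𝔭ᵢ R'` lying over
`𝔭ᵢ`), `u ∈ K = Frac R` horizontally `m`-divisible and pure in `R'`
(`u = π ^ a · ε · d ^ m`, `ε ∈ R'ˣ`, `d ∈ L`).  Then `u` is pure in `R`.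

Proof.  Branch valuations and slopes of elements of `K` are the same in `R` and in `R'`
(`valAt_map699`, `slopeAt_map699`: the defining equations are transported by `R → R'`).  Hence
`vᵢ(u) = a + m cᵢ` and `m ∣ slopeᵢ(u)`.  With `Z = π + x²` (`(v₁, v₂) = (0, 1)`,
`H399.bv_pi_add_sq`) and `e = π ^ c₁ Z ^ (c₂ - c₁)` the element `u₀ = u π ^ (-a) e ^ (-m)` is a
unit on both branches, horizontally `m`-divisible, with slopes divisible by `m`;
`H868.nodePure_both` gives `u₀ d₁ ^ m ∈ Rˣ`.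
-/

set_option autoImplicit false
set_option linter.unusedSectionVars false
set_option linter.style.haveILetI false
set_option maxHeartbeats 1000000

namespace Fermat.Agent.Ribet.H699

open Fermat.Agent.Ribet.H704 Fermat.Agent.Ribet.H132 Fermat.Agent.A2.Alg.H132
open Fermat.Agent.Ribet.H399

section Transport

variable {R K L : Type*} [CommRing R] [Field K] [Algebra R K] [Field L] [Algebra K L]
  [Algebra R L] [IsScalarTower R K L] (R' : Subalgebra R L)

theorem algebraMap_sub699 (b : R) :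
    algebraMap R' L (algebraMap R R' b) = algebraMap K L (algebraMap R K b) := by
  rw [← IsScalarTower.algebraMap_apply R K L]
  rfl

/-- Orders on a branch are transported by `R → R'`. -/
theorem ordOn_map699 {𝔭 : Ideal R} {ϖ a : R} {s : ℕ} (h : I6.OrdOn 𝔭 ϖ a s) :
    I6.OrdOn (𝔭.map (algebraMap R R')) (algebraMap R R' ϖ) (algebraMap R R' a) s := by
  unfold I6.OrdOn at h ⊢
  have hle : 𝔭 ≤ (𝔭.map (algebraMap R R')).comap (algebraMap R R') := Ideal.le_comap_map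
  have := h.map (Ideal.quotientMap (𝔭.map (algebraMap R R')) (algebraMap R R') hle)
  simpa [map_pow, Ideal.quotientMap_mk] using this

/-- Branch valuations are transported by `K → L`. -/
theorem valAt_map699 {𝔭 : Ideal R} {π : R}
    (hlo : ∀ a : R, algebraMap R R' a ∈ 𝔭.map (algebraMap R R') → a ∈ 𝔭)
    {u : K} {v : ℤ} (h : I6.ValAt K 𝔭 π u v) :
    I6.ValAt L (𝔭.map (algebraMap R R')) (algebraMap R R' π) (algebraMap K L u) v := by
  obtain ⟨a, b, ha, hb, hab⟩ := h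
  refine ⟨algebraMap R R' a, algebraMap R R' b, fun h => ha (hlo a h), fun h => hb (hlo b h), ?_⟩
  rw [algebraMap_sub699 (K := K) R' a, algebraMap_sub699 (K := K) R' b,
    algebraMap_sub699 (K := K) R' π, ← map_mul, hab, map_mul, map_zpow₀]

/-- Slopes are transported by `K → L`. -/
theorem slopeAt_map699 {𝔭 : Ideal R} {π ϖ : R}
    (hlo : ∀ a : R, algebraMap R R' a ∈ 𝔭.map (algebraMap R R') → a ∈ 𝔭)
    {u : K} {s : ℤ} (h : I6.SlopeAt K 𝔭 π ϖ u s) :
    I6.SlopeAt L (𝔭.map (algebraMap R R')) (algebraMap R R' π) (algebraMap R R' ϖ)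
      (algebraMap K L u) s := by
  obtain ⟨v, a, b, i, j, ha, hb, hab, hi, hj, hs⟩ := h
  refine ⟨v, algebraMap R R' a, algebraMap R R' b, i, j, fun h => ha (hlo a h),
    fun h => hb (hlo b h), ?_, ordOn_map699 R' hi, ordOn_map699 R' hj, hs⟩
  rw [algebraMap_sub699 (K := K) R' a, algebraMap_sub699 (K := K) R' b,
    algebraMap_sub699 (K := K) R' π, ← map_mul, hab, map_mul, map_zpow₀]

end Transport

section Calc

variable {R : Type*} [CommRing R] [IsDomain R] [IsNoetherianRing R] [IsIntegrallyClosed R]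
variable {K : Type*} [Field K] [Algebra R K] [IsFractionRing R K]
variable {π ϖ : R} {𝔭 𝔮 : Ideal R}

theorem bv_zpow699 (h : VertData π 𝔭 𝔮) {u : K} (hu : u ≠ 0) (n : ℤ) :
    branchVal h (u ^ n) = n * branchVal h u := by
  rcases n with n | n
  · rw [Int.ofNat_eq_natCast, zpow_natCast, bv_pow h hu]
  · rw [zpow_negSucc, bv_inv h (pow_ne_zero _ hu), bv_pow h hu, Int.negSucc_eq]
    push_cast
    ring

theorem bs_pow699 (h : BranchData π 𝔭 𝔮 ϖ) {u : K} (hu : u ≠ 0) (n : ℕ) :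
    branchSlope h (u ^ n) = n * branchSlope h u :=
  branchSlope_eq h (slopeAt_pow h (branchSlope_spec h hu) n)

theorem bs_inv699 (h : BranchData π 𝔭 𝔮 ϖ) {u : K} (hu : u ≠ 0) :
    branchSlope h u⁻¹ = - branchSlope h u :=
  branchSlope_eq h (slopeAt_inv h (branchSlope_spec h hu))

theorem bs_zpow699 (h : BranchData π 𝔭 𝔮 ϖ) {u : K} (hu : u ≠ 0) (n : ℤ) :
    branchSlope h (u ^ n) = n * branchSlope h u := by
  rcases n with n | n
  · rw [Int.ofNat_eq_natCast, zpow_natCast, bs_pow699 h hu]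
  · rw [zpow_negSucc, bs_inv699 h (pow_ne_zero _ hu), bs_pow699 h hu, Int.negSucc_eq]
    push_cast
    ring

theorem bs_pi699 (h : BranchData π 𝔭 𝔮 ϖ) : branchSlope (K := K) h (algebraMap R K π) = 0 :=
  branchSlope_eq h (slopeAt_pi h)

/-- A unit of `R` has slope `0`. -/
theorem bs_unit699 (h : BranchData π 𝔭 𝔮 ϖ) {ε : R} (hε : IsUnit ε) :
    branchSlope (K := K) h (algebraMap R K ε) = 0 := by
  have hp := h.vert.prime
  have hε𝔭 : ε ∉ 𝔭 := fun hmem => hp.ne_top (Ideal.eq_top_of_isUnit_mem _ hmem hε)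
  have hord : I6.OrdOn 𝔭 ϖ ε 0 := by
    unfold I6.OrdOn
    rw [pow_zero]
    exact associated_one_iff_isUnit.mpr (hε.map (Ideal.Quotient.mk 𝔭))
  have := branchSlope_eq h (slopeAt_of_ordOn (K := K) h hε𝔭 hord)
  simpa using this

/-- A unit of `R` has branch valuation `0`. -/
theorem bv_unit699 (h : VertData π 𝔭 𝔮) {ε : R} (hε : IsUnit ε) :
    branchVal (K := K) h (algebraMap R K ε) = 0 := by
  have hp := h.prime
  exact bv_of_notMem h fun hmem => hp.ne_top (Ideal.eq_top_of_isUnit_mem _ hmem hε)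

end Calc

/-- **(A2) PURE-DESCENT** (`H704.CoreOut.PureDescentStatement`, verbatim). -/
theorem pureDescent : CoreOut.PureDescentStatement := by
  intro R K L _ _ _ _ _ _ _ _ _ _ _ _ 𝔭₁ 𝔭₂ π x y hN R' hloc hic hnoe hfr hN' hlo₁ hlo₂ m hm u hu
    hdiv hpure
  haveI := hic
  haveI := hnoe
  haveI := hfr
  obtain ⟨d, a, ε, hd, hε, hud⟩ := hpure
  -- branch data downstairs and upstairs
  have V₁ := vertData_left hN
  have V₂ := vertData_right hN
  have B₁ := branchData_left hN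
  have B₂ := branchData_right hN
  have V₁' := vertData_left hN'
  have V₂' := vertData_right hN'
  have B₁' := branchData_left hN'
  have B₂' := branchData_right hN'
  have hπ0 : π ≠ 0 := isNode_pi_ne_zero hN
  have hπK : algebraMap R K π ≠ 0 := algebraMap_ne_zero_h399 hπ0
  have hπ'0 : algebraMap R R' π ≠ 0 := isNode_pi_ne_zero hN'
  have hπL : algebraMap R' L (algebraMap R R' π) ≠ 0 := algebraMap_ne_zero_h399 hπ'0
  have hε0 : algebraMap R' L ε ≠ 0 := algebraMap_ne_zero_h399 hε.ne_zero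
  have huL : algebraMap K L u ≠ 0 := (map_ne_zero _).mpr hu
  -- the purity equation upstairs
  have hud' : algebraMap K L u =
      (algebraMap R' L (algebraMap R R' π)) ^ a * algebraMap R' L ε * d ^ m := hud
  -- valuations and slopes are the same upstairs and downstairs
  have ev₁ : branchVal V₁' (algebraMap K L u) = branchVal V₁ u :=
    branchVal_eq V₁' (valAt_map699 R' hlo₁ (branchVal_spec V₁ hu))
  have ev₂ : branchVal V₂' (algebraMap K L u) = branchVal V₂ u :=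
    branchVal_eq V₂' (valAt_map699 R' hlo₂ (branchVal_spec V₂ hu))
  have es₁ : branchSlope B₁' (algebraMap K L u) = branchSlope B₁ u :=
    branchSlope_eq B₁' (slopeAt_map699 R' hlo₁ (branchSlope_spec B₁ hu))
  have es₂ : branchSlope B₂' (algebraMap K L u) = branchSlope B₂ u :=
    branchSlope_eq B₂' (slopeAt_map699 R' hlo₂ (branchSlope_spec B₂ hu))
  -- valuations and slopes upstairs from purity
  have hz : (algebraMap R' L (algebraMap R R' π)) ^ a ≠ 0 := zpow_ne_zero _ hπL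
  have hdm : d ^ m ≠ 0 := pow_ne_zero _ hd
  have kv : ∀ {𝔭 𝔮 : Ideal R'} (h : VertData (algebraMap R R' π) 𝔭 𝔮),
      branchVal h (algebraMap K L u) = a + m * branchVal h d := by
    intro 𝔭 𝔮 h
    rw [hud', branchVal_mul h _ _ (mul_ne_zero hz hε0) hdm, branchVal_mul h _ _ hz hε0,
      bv_zpow699 h hπL, branchVal_pi, bv_unit699 h hε, bv_pow h hd]
    ring
  have ks : ∀ {𝔭 𝔮 : Ideal R'} {ϖ : R'} (h : BranchData (algebraMap R R' π) 𝔭 𝔮 ϖ),
      branchSlope h (algebraMap K L u) = m * branchSlope h d := by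
    intro 𝔭 𝔮 ϖ h
    rw [hud', branchSlope_mul h _ _ (mul_ne_zero hz hε0) hdm, branchSlope_mul h _ _ hz hε0,
      bs_zpow699 h hπL, bs_pi699, bs_unit699 h hε, bs_pow699 h hd]
    ring
  have hv₁ : branchVal V₁ u = a + m * branchVal V₁' d := by rw [← ev₁, kv V₁']
  have hv₂ : branchVal V₂ u = a + m * branchVal V₂' d := by rw [← ev₂, kv V₂']
  have hs₁ : branchSlope B₁ u = m * branchSlope B₁' d := by rw [← es₁, ks B₁']
  have hs₂ : branchSlope B₂ u = m * branchSlope B₂' d := by rw [← es₂, ks B₂']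
  -- the element `Z = π + x²`, `(v₁, v₂) = (0, 1)`
  have hπ₁ : π ∈ 𝔭₁ := by
    have : π ∈ 𝔭₁ ⊓ 𝔭₂ := by rw [hN.inf_eq]; exact Ideal.mem_span_singleton_self π
    exact this.1
  haveI hpr₁ := hN.prime₁
  set Z : R := π + x ^ 2 with hZ
  have hZ₁ : Z ∉ 𝔭₁ := by
    intro hmem
    have : x ^ 2 ∈ 𝔭₁ := by
      have := 𝔭₁.sub_mem hmem hπ₁
      simpa [hZ] using this
    exact hN.hx₁ (hpr₁.mem_of_pow_mem _ this)
  have hZ0 : Z ≠ 0 := fun h0 => hZ₁ (h0 ▸ 𝔭₁.zero_mem)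
  have hZK : algebraMap R K Z ≠ 0 := algebraMap_ne_zero_h399 hZ0
  have bZ₁ : branchVal (K := K) V₁ (algebraMap R K Z) = 0 := bv_of_notMem V₁ hZ₁
  have bZ₂ : branchVal (K := K) V₂ (algebraMap R K Z) = 1 := bv_pi_add_sq V₂ hN.hx hZ0
  -- normalisation
  set c₁ : ℤ := branchVal V₁' d with hc₁
  set c₂ : ℤ := branchVal V₂' d with hc₂
  set e : K := (algebraMap R K π) ^ c₁ * (algebraMap R K Z) ^ (c₂ - c₁) with he
  have he0 : e ≠ 0 := mul_ne_zero (zpow_ne_zero _ hπK) (zpow_ne_zero _ hZK)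
  have be₁ : branchVal V₁ e = c₁ := by
    rw [he, branchVal_mul V₁ _ _ (zpow_ne_zero _ hπK) (zpow_ne_zero _ hZK), bv_zpow699 V₁ hπK,
      bv_zpow699 V₁ hZK, branchVal_pi, bZ₁]
    ring
  have be₂ : branchVal V₂ e = c₂ := by
    rw [he, branchVal_mul V₂ _ _ (zpow_ne_zero _ hπK) (zpow_ne_zero _ hZK), bv_zpow699 V₂ hπK,
      bv_zpow699 V₂ hZK, branchVal_pi, bZ₂]
    ring
  have hπa : (algebraMap R K π) ^ a ≠ 0 := zpow_ne_zero _ hπK
  have hem : e ^ m ≠ 0 := pow_ne_zero _ he0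
  set u₀ : K := u * ((algebraMap R K π) ^ a)⁻¹ * (e ^ m)⁻¹ with hu₀
  have hu₀0 : u₀ ≠ 0 := mul_ne_zero (mul_ne_zero hu (inv_ne_zero hπa)) (inv_ne_zero hem)
  have kv₀ : ∀ {𝔭 𝔮 : Ideal R} (h : VertData π 𝔭 𝔮),
      branchVal h u₀ = branchVal h u - a - m * branchVal h e := by
    intro 𝔭 𝔮 h
    rw [hu₀, branchVal_mul h _ _ (mul_ne_zero hu (inv_ne_zero hπa)) (inv_ne_zero hem),
      branchVal_mul h _ _ hu (inv_ne_zero hπa), bv_inv h hπa, bv_inv h hem, bv_zpow699 h hπK,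
      branchVal_pi, bv_pow h he0]
    ring
  have ks₀ : ∀ {𝔭 𝔮 : Ideal R} {ϖ : R} (h : BranchData π 𝔭 𝔮 ϖ),
      branchSlope h u₀ = branchSlope h u - m * branchSlope h e := by
    intro 𝔭 𝔮 ϖ h
    rw [hu₀, branchSlope_mul h _ _ (mul_ne_zero hu (inv_ne_zero hπa)) (inv_ne_zero hem),
      branchSlope_mul h _ _ hu (inv_ne_zero hπa), bs_inv699 h hπa, bs_inv699 h hem,
      bs_zpow699 h hπK, bs_pi699, bs_pow699 h he0]
    ring
  have hv₁0 : I6.ValAt K 𝔭₁ π u₀ 0 := by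
    have h0 : branchVal V₁ u₀ = 0 := by rw [kv₀ V₁, hv₁, be₁]; ring
    have := branchVal_spec V₁ hu₀0
    rwa [h0] at this
  have hv₂0 : I6.ValAt K 𝔭₂ π u₀ 0 := by
    have h0 : branchVal V₂ u₀ = 0 := by rw [kv₀ V₂, hv₂, be₂]; ring
    have := branchVal_spec V₂ hu₀0
    rwa [h0] at this
  have hd₁ : (m : ℤ) ∣ branchSlope B₁ u₀ := by
    rw [ks₀ B₁, hs₁]
    exact dvd_sub (dvd_mul_right _ _) (dvd_mul_right _ _)
  have hd₂ : (m : ℤ) ∣ branchSlope B₂ u₀ := by
    rw [ks₀ B₂, hs₂]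
    exact dvd_sub (dvd_mul_right _ _) (dvd_mul_right _ _)
  -- horizontal divisibility of `u₀`
  have hdiv₀ : I6.HorDivVal K π m u₀ := by
    intro V hV hRV hπV
    obtain ⟨g, w, hw, hw', hgw⟩ := hdiv V hV hRV hπV
    have hπV' : algebraMap R K π ∈ V := hRV π
    have hzV : ∀ n : ℤ, (algebraMap R K π) ^ n ∈ V := by
      intro n
      rcases n with n | n
      · rw [Int.ofNat_eq_natCast, zpow_natCast]
        exact pow_mem hπV' n
      · rw [zpow_negSucc, ← inv_pow]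
        exact pow_mem hπV _
    refine ⟨g * e⁻¹, w * ((algebraMap R K π) ^ a)⁻¹, ?_, ?_, ?_⟩
    · rw [← zpow_neg]
      exact mul_mem hw (hzV _)
    · rw [mul_inv, inv_inv]
      exact mul_mem hw' (hzV _)
    · have e1 : (g * e⁻¹) ^ m = g ^ m * (e ^ m)⁻¹ := by rw [mul_pow, inv_pow]
      rw [hu₀, hgw, e1]
      ring
  -- purity downstairs
  obtain ⟨d₁, ε₁, hd₁0, h1, -, -⟩ := Fermat.Agent.Ribet.H868.nodePure_both hN hm hdiv₀ hv₁0 hv₂0
    (branchSlope_spec B₁ hu₀0) (branchSlope_spec B₂ hu₀0) hd₁ hd₂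
  refine ⟨e * d₁⁻¹, a, (ε₁ : R), mul_ne_zero he0 (inv_ne_zero hd₁0), ε₁.isUnit, ?_⟩
  have hd₁m : d₁ ^ m ≠ 0 := pow_ne_zero _ hd₁0
  have h2 : u = (algebraMap R K π) ^ a * e ^ m * u₀ := by
    rw [hu₀]
    field_simp
  have h3 : u₀ = algebraMap R K (ε₁ : R) * (d₁ ^ m)⁻¹ := by
    rw [← h1]
    field_simp
  have e2 : (e * d₁⁻¹) ^ m = e ^ m * (d₁ ^ m)⁻¹ := by rw [mul_pow, inv_pow]
  rw [e2, h2, h3]
  ring

end Fermat.Agent.Ribet.H699
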