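import Fermat.Agent.Ribet.H699.HeckeNodeGen
import Fermat.Agent.Ribet.H158.WallQPow

/-!
# Row 37, WALL-q, EIS-q leaf HECKE-NODE-q (`H158.WallQ.HeckeNodeGenQStatement` and the
# `p ^ n` form `H158.WallQ.HeckeNodeGenQPowStatement`, both VERBATIM)   (helper699)

`NodeGenQ f ⇒ NodeGenQ g` for `g = kronNorm ℓ f`, level `q M'`, `A` over `q`, torsion prime
`p ≠ q`, `ℓ ∤ q M' p`.  Same assembly as `H699.heckeNodeGen` (the case `q = p`): helper223's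
Hecke correspondence over `k = A/𝔪` is valid in every characteristic and for every modulus.
-/

set_option autoImplicit false
set_option linter.style.haveILetI false
set_option synthInstance.maxHeartbeats 400000
set_option maxHeartbeats 1000000

noncomputable section

open AlgebraicCurve ModularCurve

namespace Fermat.Agent.Ribet.H699

open Fermat.Agent.S24 Fermat.Agent.A2.H708 Fermat.Agent.A2.H528
open Fermat.Agent.Ribet.Spec Fermat.Agent.Ribet.H884 Fermat.Agent.Ribet.H158.WallQ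
open Fermat.Agent.S37.H400

/-- `kronNorm ℓ` preserves `PDivFin n M'` over an algebraically closed field of characteristic
`c`, `c ∤ M'`, `ℓ ≠ c`, `ℓ ∤ M'` (any modulus `n`). -/
theorem pDivFin_kronNorm_of_char {k : Type} [Field k] [IsAlgClosed k] (n M' ℓ c : ℕ)
    [NeZero M'] [NeZero ℓ] [CharP k c] (hc : c.Prime) (hcM : ¬ c ∣ M') (hℓ : ℓ.Prime)
    (hℓc : ℓ ≠ c) (hℓM : ¬ ℓ ∣ M') {r : LaurentSeries k} (hr : PDivFin n M' r) :
    PDivFin n M' (kronNorm ℓ r) := by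
  obtain ⟨h, rfl, h0, hdiv⟩ := hr
  have hchar : ∀ s : ℕ, s.Prime → s ∣ M' * ℓ → (s : k) ≠ 0 := by
    intro s hs hsd hs0
    have h1 : c ∣ s := (CharP.cast_eq_zero_iff k c s).mp hs0
    have h2 : c = s := (Nat.prime_dvd_prime_iff_eq hc hs).mp h1
    subst h2
    rcases (Nat.Prime.dvd_mul hc).mp hsd with h3 | h3
    · exact hcM h3
    · exact hℓc ((Nat.prime_dvd_prime_iff_eq hc hℓ).mp h3).symm
  obtain ⟨h', hh', hh'0, hdiv'⟩ :=
    Fermat.Agent.Ribet.H223.HF.exists_kronNorm_dvd_ord_of_nonneg (k := k) (N := M') (ℓ := ℓ)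
      hℓ hℓM hchar (n : ℤ) h h0 (fun Q hQ => hdiv Q hQ)
  exact ⟨h', hh', hh'0, fun Q hQ => hdiv' Q hQ⟩

/-- `NodeGenQ` is stable under `Nm_α ∘ β`. -/
theorem nodeGenQ_heckeNorm (p q M' : ℕ) [NeZero M'] [NeZero q] [NeZero (q * M')]
    (hq : q.Prime) (hqM : ¬ q ∣ M') (A : ValuationSubring Kbar) (hA : A.LiesOverPrime q)
    (ℓ : ℕ) [NeZero ℓ] (hℓ : ℓ.Prime) (hℓN : ¬ ℓ ∣ q * M') {f : FF (q * M')}
    (h : NodeGenQ p q M' A f) :
    NodeGenQ p q M' A (Fermat.Agent.S29.H222.heckeNorm (q * M') ℓ f) := by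
  obtain ⟨r₁, r₂, h1, h2, h3, h4⟩ := h
  haveI : CharP (kA A) q := charP_kA A hq hA
  haveI : IsAlgClosed (kA A) := Fermat.Agent.S18.H9.resAlgClosed (AlgebraicClosure ℚ) A
  have hℓq : ℓ ≠ q := fun e => hℓN (e ▸ dvd_mul_right q M')
  have hℓM : ¬ ℓ ∣ M' := fun e => hℓN (dvd_mul_of_dvd_right e q)
  refine ⟨kronNorm ℓ r₁, kronNorm ℓ r₂,
    Fermat.Agent.Ribet.H376.isRedInf_heckeNorm' (q * M') ℓ hℓ hℓN A h1, ?_,
    pDivFin_kronNorm_of_char p M' ℓ q hq hqM hℓ hℓq hℓM h3,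
    pDivFin_kronNorm_of_char p M' ℓ q hq hqM hℓ hℓq hℓM h4⟩
  unfold IsRedZero at h2 ⊢
  rw [Fermat.Agent.Ribet.H376.wF_heckeNorm hℓ hℓN]
  exact Fermat.Agent.Ribet.H376.isRedInf_heckeNorm' (q * M') ℓ hℓ hℓN A h2

/-- **HECKE-NODE-q** (`H158.WallQ.HeckeNodeGenQStatement`, verbatim). -/
theorem heckeNodeGenQ : HeckeNodeGenQStatement := by
  intro p q M' _ _ _ _ hq _ hqM A hA ℓ _ hℓN f g hg hf
  have hℓN' : ¬ (ℓ : ℕ) ∣ q * M' := fun e => hℓN (dvd_mul_of_dvd_left e p)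
  have hgf : g = Fermat.Agent.S29.H222.heckeNorm (q * M') ℓ f :=
    Subtype.ext (hg.trans (Fermat.Agent.S37.H157.node_normid (q * M') ℓ ℓ.2 hℓN' f).symm)
  rw [hgf]
  exact nodeGenQ_heckeNorm p q M' hq hqM A hA ℓ ℓ.2 hℓN' hf

/-- **HECKE-NODE-q for `p ^ n`** (`H158.WallQ.HeckeNodeGenQPowStatement`, verbatim). -/
theorem heckeNodeGenQPow : HeckeNodeGenQPowStatement := by
  intro p n q M' _ _ _ _ _ hq _ hqM A hA ℓ _ hℓN f g hg hf
  have hℓN' : ¬ (ℓ : ℕ) ∣ q * M' := fun e => hℓN (dvd_mul_of_dvd_left e p)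
  have hgf : g = Fermat.Agent.S29.H222.heckeNorm (q * M') ℓ f :=
    Subtype.ext (hg.trans (Fermat.Agent.S37.H157.node_normid (q * M') ℓ ℓ.2 hℓN' f).symm)
  rw [hgf]
  exact nodeGenQ_heckeNorm (p ^ n) q M' hq hqM A hA ℓ ℓ.2 hℓN' hf

end Fermat.Agent.Ribet.H699

end
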