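import Fermat.Agent.Ribet.H698.RedMapSpec
import Fermat.Agent.Ribet.H223.HeckeFunCore
import Fermat.Agent.S18.H9.Res

/-!
# Row 37, WALL-q, RED-MAP leaf KNORM-FIELD (`H698.RedMap.KnormFieldStatement`, VERBATIM)
  (helper699)

The formal Kronecker norm `kronNorm ℓ` (`ℓ ∤ q M'`) maps `F_k = k(X₀(M'))` into itself
(`k = A/𝔪`, `A` over `q ∤ M'`): adapter of helper223's characteristic-free Hecke correspondence
`H223.HF.exists_kronNorm_dvd_ord` (`Nm_α (β h)` has `t`-expansion `kronNorm ℓ h`).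
-/

set_option autoImplicit false
set_option linter.style.haveILetI false
set_option synthInstance.maxHeartbeats 400000
set_option maxHeartbeats 1000000

noncomputable section

open AlgebraicCurve ModularCurve

namespace Fermat.Agent.Ribet.H699

open Fermat.Agent.S24 Fermat.Agent.Ribet.H884 Fermat.Agent.S37.H400

/-- The residue field of a valuation subring of `ℚ̄` over `q` has characteristic `q`. -/
theorem charP_kA_q699 (A : ValuationSubring Kbar) {q : ℕ} (hq : q.Prime)
    (hA : A.LiesOverPrime q) : CharP (kA A) q := by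
  have hpm : ((q : ℕ) : A) ∈ IsLocalRing.maximalIdeal A := by
    obtain ⟨ha, hm⟩ := (ValuationSubring.mem_nonunits_iff_exists_mem_maximalIdeal).mp hA
    have : (⟨(q : AlgebraicClosure ℚ), ha⟩ : A) = ((q : ℕ) : A) := by
      apply Subtype.ext; simp
    rwa [this] at hm
  have h0 : ((q : ℕ) : IsLocalRing.ResidueField A) = 0 := by
    have := (IsLocalRing.residue_eq_zero_iff ((q : ℕ) : A)).mpr hpm
    rwa [map_natCast] at this
  exact (CharP.charP_iff_prime_eq_zero hq).mpr h0

/-- `kronNorm ℓ` preserves `F_k` (`k` algebraically closed of characteristic `c ∤ M'`, `ℓ ≠ c`,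
`ℓ ∤ M'`). -/
theorem kronNorm_mem_full699 {k : Type} [Field k] [IsAlgClosed k] (M' ℓ c : ℕ) [NeZero M']
    [NeZero ℓ] [CharP k c] (hc : c.Prime) (hcM : ¬ c ∣ M') (hℓ : ℓ.Prime) (hℓc : ℓ ≠ c)
    (hℓM : ¬ ℓ ∣ M') (h : modularFunctionFieldFullC k M') :
    kronNorm ℓ (h : LaurentSeries k) ∈ modularFunctionFieldFullC k M' := by
  by_cases h0 : h = 0
  · subst h0
    have e : kronNorm ℓ ((0 : modularFunctionFieldFullC k M') : LaurentSeries k) = 0 := by
      have h1 : ((0 : modularFunctionFieldFullC k M') : LaurentSeries k) = 0 := rfl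
      rw [h1, kronNorm, map_zero, zero_mul]
    rw [e]
    exact zero_mem _
  · have hchar : ∀ s : ℕ, s.Prime → s ∣ M' * ℓ → (s : k) ≠ 0 := by
      intro s hs hsd hs0
      have h1 : c ∣ s := (CharP.cast_eq_zero_iff k c s).mp hs0
      have h2 : c = s := (Nat.prime_dvd_prime_iff_eq hc hs).mp h1
      subst h2
      rcases (Nat.Prime.dvd_mul hc).mp hsd with h3 | h3
      · exact hcM h3
      · exact hℓc ((Nat.prime_dvd_prime_iff_eq hc hℓ).mp h3).symm
    obtain ⟨h', hh', -, -⟩ :=
      Fermat.Agent.Ribet.H223.HF.exists_kronNorm_dvd_ord (k := k) (N := M') (ℓ := ℓ)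
        hℓ hℓM hchar (1 : ℤ) h h0 (fun Q => one_dvd _)
    rw [← hh']
    exact h'.2

/-- **KNORM-FIELD** (`H698.RedMap.KnormFieldStatement`, verbatim). -/
theorem knormField : Fermat.Agent.Ribet.H698.RedMap.KnormFieldStatement := by
  intro q M' _ hq hqM A hA ℓ _ hℓ hℓN h
  haveI : CharP (kA A) q := charP_kA_q699 A hq hA
  haveI : IsAlgClosed (kA A) := Fermat.Agent.S18.H9.resAlgClosed (AlgebraicClosure ℚ) A
  have hℓq : ℓ ≠ q := fun e => hℓN (e ▸ dvd_mul_right q M')
  have hℓM : ¬ ℓ ∣ M' := fun e => hℓN (dvd_mul_of_dvd_right e q)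
  exact kronNorm_mem_full699 M' ℓ q hq hqM hℓ hℓq hℓM h

end Fermat.Agent.Ribet.H699

end
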