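import Fermat.Agent.Ribet.H704.EisSpec
import Fermat.Agent.Ribet.H223.HeckeFunCore
import Fermat.Agent.S37.H340.KronBridge

/-!
# Row 38, WALL-p, (S4) leaf KNORM-OFF (`H704.Eis.KnormOffStatement`, VERBATIM)  (helper699)

`knorm ℓ` preserves "`r ∈ k(X₀(M'))ˣ`, `p ∣ ord_Q r` at every non-cuspidal place `Q`"
(`k` algebraically closed of characteristic `p`, `p ∤ M'`, `ℓ ∤ pM'`).

Adapter of helper223's characteristic-`p` Hecke correspondence
`H223.HF.exists_kronNorm_dvd_ord_of_nonneg` (`S37.H697.knorm = S37.H400.kronNorm`).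
-/

set_option autoImplicit false
set_option linter.style.haveILetI false
set_option synthInstance.maxHeartbeats 400000
set_option maxHeartbeats 1000000

noncomputable section

open AlgebraicCurve ModularCurve

namespace Fermat.Agent.Ribet.H699

open Fermat.Agent.Ribet.H704.Eis

/-- The two formal Kronecker norms on main agree. -/
theorem knorm697_eq_kronNorm400 {R : Type*} [CommRing R] (ℓ : ℕ) [NeZero ℓ]
    (f : LaurentSeries R) :
    Fermat.Agent.S37.H697.knorm ℓ f = Fermat.Agent.S37.H400.kronNorm ℓ f := by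
  rw [Fermat.Agent.S37.H340.kronNorm_eq]
  rfl

/-- **KNORM-OFF** (`H704.Eis.KnormOffStatement`, verbatim). -/
theorem knormOff : KnormOffStatement := by
  intro p M' _ hp hpM k _ _ _ ℓ _ hℓ hℓN r hr
  obtain ⟨h, rfl, h0, hdiv⟩ := hr
  have hℓp : ℓ ≠ p := fun e => hℓN (e ▸ dvd_mul_right p M')
  have hℓM : ¬ ℓ ∣ M' := fun e => hℓN (dvd_mul_of_dvd_right e p)
  have hchar : ∀ q : ℕ, q.Prime → q ∣ M' * ℓ → (q : k) ≠ 0 := by
    intro q hq hqd hq0
    have h1 : p ∣ q := (CharP.cast_eq_zero_iff k p q).mp hq0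
    have h2 : p = q := (Nat.prime_dvd_prime_iff_eq hp hq).mp h1
    subst h2
    rcases (Nat.Prime.dvd_mul hp).mp hqd with h3 | h3
    · exact hpM h3
    · exact hℓp ((Nat.prime_dvd_prime_iff_eq hp hℓ).mp h3).symm
  obtain ⟨h', hh', hh'0, hdiv'⟩ :=
    Fermat.Agent.Ribet.H223.HF.exists_kronNorm_dvd_ord_of_nonneg (k := k) (N := M') (ℓ := ℓ)
      hℓ hℓM hchar (p : ℤ) h h0 (fun Q hQ => hdiv Q hQ)
  refine ⟨h', ?_, hh'0, fun Q hQ => hdiv' Q hQ⟩
  rw [hh', knorm697_eq_kronNorm400]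

end Fermat.Agent.Ribet.H699

end
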